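import Mathlib.LinearAlgebra.Dimension.Localization
import Mathlib.LinearAlgebra.Quotient.Pi
import Mathlib.RingTheory.Algebraic.Basic
import Mathlib.RingTheory.DedekindDomain.Basic
import Mathlib.RingTheory.IntegralClosure.IntegrallyClosed
import Mathlib.RingTheory.Localization.Integral
import Mathlib.RingTheory.OrderOfVanishing.Basic

/-!
# The theorem of Krull and Akizuki

The key point is that `M ⧸ a M` has length at most `r` times that of `A ⧸ a A` for every
torsion-free module `M` of rank `r`, finitely generated or not.
-/

set_option autoImplicit false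

noncomputable section

namespace Fermat.Agent.KrullAkizuki

open Submodule

section length

variable {A : Type*} [CommRing A] {V : Type*} [AddCommGroup V] [Module A V]

/-- The length is the supremum over finitely generated submodules. -/
theorem length_le_of_forall_fg {n : ℕ}
    (h : ∀ N : Submodule A V, N.FG → Module.length A N ≤ n) : Module.length A V ≤ n := by
  classical
  rw [← WithBot.coe_le_coe, Module.coe_length]
  refine iSup_le fun p => ?_
  choose x hx hx' using fun i : Fin p.length =>
    SetLike.exists_of_lt (show p i.castSucc < p i.succ from p.step i)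
  let N := span A (Set.range x)
  have hmono : StrictMono fun i => (p i).comap N.subtype := Fin.strictMono_iff_lt_succ.2 fun i =>
    lt_of_le_of_ne (comap_mono (p.monotone i.castSucc_lt_succ.le)) fun he => hx' i (by
      have : (⟨x i, subset_span ⟨i, rfl⟩⟩ : N) ∈ (p i.castSucc).comap N.subtype := by
        rw [he]; exact hx i
      exact this)
  let q : LTSeries (Submodule A N) := LTSeries.mk p.length _ hmono
  have hq : (q.length : WithBot ℕ∞) ≤ Order.krullDim (Submodule A N) :=
    Order.LTSeries.length_le_krullDim q
  rw [← Module.coe_length] at hq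
  exact hq.trans (WithBot.coe_le_coe.2 (h N ⟨Finset.univ.image x, by simp [N]⟩))

/-- Length of a quotient in two steps. -/
theorem length_quotient_eq_add {P Q : Submodule A V} (hPQ : P ≤ Q) :
    Module.length A (V ⧸ P) = Module.length A (Q.map P.mkQ) + Module.length A (V ⧸ Q) := by
  rw [← (quotientQuotientEquivQuotient P Q hPQ).length_eq]
  exact Module.length_eq_add_of_exact _ (Q.map P.mkQ).mkQ (Submodule.injective_subtype _)
    (mkQ_surjective _) (LinearMap.exact_subtype_mkQ _)

end length

variable {A : Type*} [CommRing A] [IsDomain A] [IsNoetherianRing A] [Ring.KrullDimLE 1 A]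

theorem length_quotient_ne_top {a : A} (ha : a ≠ 0) :
    Module.length A (A ⧸ Ideal.span {a}) ≠ ⊤ :=
  Module.length_ne_top_iff.2
    (isFiniteLength_quotient_span_singleton A (mem_nonZeroDivisors_of_ne_zero ha))

/-- A finitely generated torsion module has finite length. -/
theorem length_ne_top_of_smul_eq_zero {Q : Type*} [AddCommGroup Q] [Module A Q] [Module.Finite A Q]
    {c : A} (hc : c ≠ 0) (h : ∀ q : Q, c • q = 0) : Module.length A Q ≠ ⊤ := by
  obtain ⟨m, g, hg⟩ := Module.Finite.exists_fin' A Q
  have hker : pi Set.univ (fun _ : Fin m => Ideal.span {c}) ≤ LinearMap.ker g := fun f hf => by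
    choose d hd using fun i => Ideal.mem_span_singleton'.1 (hf i trivial)
    rw [LinearMap.mem_ker, show f = c • d from funext fun i => (hd i).symm.trans (mul_comm _ _),
      map_smul, h]
  refine ne_top_of_le_ne_top ?_ ((Module.length_le_of_surjective ((liftQ _ g hker).comp
    (quotientPi fun _ : Fin m => Ideal.span {c}).symm.toLinearMap) fun q => ?_))
  · obtain ⟨l, hl⟩ := ENat.ne_top_iff_exists.1 (length_quotient_ne_top hc)
    rw [Module.length_pi_of_fintype, Finset.sum_const, nsmul_eq_mul, ← hl, ← Nat.cast_mul]
    exact ENat.natCast_ne_top _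
  · obtain ⟨x, rfl⟩ := hg q
    exact ⟨quotientPi (fun _ : Fin m => Ideal.span {c}) (Submodule.Quotient.mk x), by simp⟩

variable {V : Type*} [AddCommGroup V] [Module A V] [Module.IsTorsionFree A V]

/-- The key lemma for a finitely generated module. -/
theorem length_quotient_smul_le_of_fg {r : ℕ} (hr : Module.rank A V ≤ r) [Module.Finite A V]
    (a : A) (ha : a ≠ 0) :
    Module.length A (V ⧸ LinearMap.range (LinearMap.lsmul A V a)) ≤
      r * Module.length A (A ⧸ Ideal.span {a}) := by
  classical
  obtain ⟨t, ht⟩ := Module.Finite.fg_top (R := A) (M := V)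
  obtain ⟨s, hs, hmax⟩ := exists_maximal_linearIndepOn A ((↑) : t → V)
  let b : s → V := fun i => ((i : t) : V)
  have hb : LinearIndependent A b := hs
  let F := span A (Set.range b)
  let φ : V →ₗ[A] V := LinearMap.lsmul A V a
  have hcard : Fintype.card s ≤ r := (Nat.cast_le (α := Cardinal)).1
    ((Cardinal.mk_fintype s).symm.trans_le (hb.cardinal_le_rank.trans hr))
  -- the torsion quotient
  have hmemF : ∀ i : t, ∃ c : A, c ≠ 0 ∧ c • (i : V) ∈ F := fun i => by
    by_cases hi : i ∈ s
    · exact ⟨1, one_ne_zero, by rw [one_smul]; exact subset_span ⟨⟨i, hi⟩, rfl⟩⟩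
    · obtain ⟨c, hc, hci⟩ := hmax i hi
      refine ⟨c, hc, ?_⟩
      rwa [Set.image_eq_range] at hci
  choose c hc hcF using hmemF
  have hQ : Module.length A (V ⧸ F) ≠ ⊤ := by
    refine length_ne_top_of_smul_eq_zero (c := ∏ i, c i)
      (Finset.prod_ne_zero_iff.2 fun i _ => hc i) fun q => ?_
    obtain ⟨v, rfl⟩ := mkQ_surjective F q
    rw [← map_smul, mkQ_apply, Quotient.mk_eq_zero]
    have hv : v ∈ span A (t : Set V) := ht ▸ mem_top
    induction hv using span_induction with
    | mem w hw =>
      rw [← Finset.prod_erase_mul _ _ (Finset.mem_univ ⟨w, hw⟩), mul_smul]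
      exact smul_mem _ _ (hcF ⟨w, hw⟩)
    | zero => rw [smul_zero]; exact F.zero_mem
    | add w w' _ _ hw hw' => rw [smul_add]; exact F.add_mem hw hw'
    | smul x w _ hw => rw [smul_comm]; exact F.smul_mem x hw
  have hφ : Function.Injective φ := fun x y h => smul_right_injective V ha h
  have hFF : F.map φ ≤ F := map_le_iff_le_comap.2 fun x hx => F.smul_mem a hx
  -- `φ V / φ F` is isomorphic to `V / F`
  have h1 : Module.length A ((LinearMap.range φ).map (F.map φ).mkQ) = Module.length A (V ⧸ F) := by
    have hk : LinearMap.ker ((F.map φ).mkQ.comp φ) = F := by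
      rw [LinearMap.ker_comp, ker_mkQ, comap_map_eq_of_injective hφ]
    rw [← LinearMap.range_comp, ← ((F.map φ).mkQ.comp φ).quotKerEquivRange.length_eq,
      (quotEquivOfEq _ _ hk).length_eq]
  -- `F / a F` has length at most `r` times that of `A / a A`
  have h2 : Module.length A (F.map (F.map φ).mkQ) ≤ r * Module.length A (A ⧸ Ideal.span {a}) := by
    let ψ : (s → A) →ₗ[A] V ⧸ F.map φ := (F.map φ).mkQ.comp (Fintype.linearCombination A b)
    have hrange : LinearMap.range ψ = F.map (F.map φ).mkQ := by
      rw [LinearMap.range_comp, Fintype.range_linearCombination]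
    have hker : pi Set.univ (fun _ : s => Ideal.span {a}) ≤ LinearMap.ker ψ := fun f hf => by
      choose g hg using fun i => Ideal.mem_span_singleton'.1 (hf i trivial)
      rw [LinearMap.mem_ker, LinearMap.comp_apply, mkQ_apply, Quotient.mk_eq_zero]
      refine ⟨Fintype.linearCombination A b g, ?_, ?_⟩
      · rw [SetLike.mem_coe, show F = LinearMap.range (Fintype.linearCombination A b) from
          (Fintype.range_linearCombination A b).symm]
        exact LinearMap.mem_range_self _ g
      · change a • Fintype.linearCombination A b g = _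
        rw [← map_smul]
        exact congrArg _ (funext fun i => by rw [← hg i]; exact mul_comm _ _)
    rw [← hrange]
    calc Module.length A (LinearMap.range ψ)
        ≤ Module.length A (s → A ⧸ Ideal.span {a}) := by
          rw [← (quotientPi fun _ : s => Ideal.span {a}).length_eq,
            ← ψ.quotKerEquivRange.length_eq]
          exact Module.length_le_of_surjective (mapQ _ _ LinearMap.id hker) fun y => by
            obtain ⟨z, rfl⟩ := mkQ_surjective _ y
            exact ⟨Submodule.Quotient.mk z, rfl⟩
      _ = Fintype.card s * Module.length A (A ⧸ Ideal.span {a}) := by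
          rw [Module.length_pi_of_fintype]; simp
      _ ≤ r * Module.length A (A ⧸ Ideal.span {a}) := by gcongr
  have e1 := length_quotient_eq_add (show F.map φ ≤ LinearMap.range φ from LinearMap.map_le_range)
  have e2 := length_quotient_eq_add hFF
  rw [h1] at e1
  rw [e1, add_comm] at e2
  exact (ENat.add_le_add_iff_right hQ).1 (e2.trans_le (add_le_add h2 le_rfl))

variable (V) in
/-- **The lemma of Akizuki**: no finiteness is needed. -/
theorem length_quotient_smul_le {r : ℕ} (hr : Module.rank A V ≤ r) (a : A) (ha : a ≠ 0) :
    Module.length A (V ⧸ LinearMap.range (LinearMap.lsmul A V a)) ≤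
      r * Module.length A (A ⧸ Ideal.span {a}) := by
  classical
  obtain ⟨l, hl⟩ := ENat.ne_top_iff_exists.1 (length_quotient_ne_top ha)
  rw [← hl, ← Nat.cast_mul]
  set φ := LinearMap.lsmul A V a
  refine length_le_of_forall_fg fun N hN => ?_
  obtain ⟨t, ht⟩ := hN
  choose f hf using mkQ_surjective (LinearMap.range φ)
  let W := span A (t.image f : Set V)
  have : Module.Finite A W := Module.Finite.span_of_finite A (t.image f).finite_toSet
  have hle := length_quotient_smul_le_of_fg (V := W) ((rank_le W).trans hr) a ha
  rw [← hl, ← Nat.cast_mul] at hle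
  have hker : LinearMap.range (LinearMap.lsmul A W a) ≤
      (LinearMap.range φ).comap W.subtype := by
    rintro _ ⟨w, rfl⟩
    exact ⟨w, rfl⟩
  let θ := mapQ _ (LinearMap.range φ) W.subtype hker
  have hN : N = LinearMap.range θ := by
    rw [range_mapQ, range_subtype, ← ht, map_span, Finset.coe_image, ← Set.image_comp]
    simp [hf]
  rw [hN]
  exact (Module.length_le_of_surjective θ.rangeRestrict θ.surjective_rangeRestrict).trans hle

section subalgebra

variable (K : Type*) [Field K] [Algebra A K] [IsFractionRing A K] {L : Type*} [Field L]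
  [Algebra K L] [Algebra A L] [IsScalarTower A K L] [Module.Finite K L]

include K in
/-- **Krull–Akizuki**, the finite length form: nonzero ideals of intermediate rings have quotients
of finite length over `A`. -/
theorem isFiniteLength_quotient (B : Subalgebra A L) {J : Ideal B} (hJ : J ≠ ⊥) :
    IsFiniteLength A (B ⧸ J) := by
  have : FaithfulSMul A L := (faithfulSMul_iff_algebraMap_injective A L).2 (by
    rw [IsScalarTower.algebraMap_eq A K L]
    exact (algebraMap K L).injective.comp (IsFractionRing.injective A K))
  have hAL : Algebra.IsAlgebraic A L := IsFractionRing.comap_isAlgebraic_iff.2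
    (inferInstance : Algebra.IsAlgebraic K L)
  obtain ⟨x, hx, hx0⟩ := J.ne_bot_iff.1 hJ
  have halg : IsAlgebraic A x :=
    (isAlgebraic_algHom_iff B.val Subtype.val_injective).1 (hAL.isAlgebraic _)
  obtain ⟨a, ha, hxa⟩ := halg.exists_nonzero_dvd (mem_nonZeroDivisors_of_ne_zero hx0)
  have hrank : Module.rank A B.toSubmodule ≤ Module.finrank K L :=
    (rank_le B.toSubmodule).trans
      ((IsLocalization.rank_eq K (nonZeroDivisors A) le_rfl).symm.trans_le
        (Module.finrank_eq_rank K L).ge)
  have hlen := length_quotient_smul_le B.toSubmodule hrank a ha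
  rw [← Module.length_ne_top_iff]
  refine ne_top_of_le_ne_top ?_ ((Module.length_le_of_surjective
    (mapQ (LinearMap.range (LinearMap.lsmul A B.toSubmodule a)) (J.restrictScalars A)
      LinearMap.id ?_) fun y => ?_).trans hlen)
  · obtain ⟨l, hl⟩ := ENat.ne_top_iff_exists.1 (length_quotient_ne_top ha)
    rw [← hl, ← Nat.cast_mul]
    exact ENat.natCast_ne_top _
  · rintro _ ⟨⟨y, hy⟩, rfl⟩
    change a • (⟨y, hy⟩ : B) ∈ J
    rw [Algebra.smul_def]
    exact J.mul_mem_right _ (J.mem_of_dvd hxa hx)
  · obtain ⟨z, rfl⟩ := mkQ_surjective _ y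
    exact ⟨Submodule.Quotient.mk z, rfl⟩

include K in
/-- **Krull–Akizuki**. -/
theorem krull_akizuki (B : Subalgebra A L) : IsNoetherianRing B ∧ Ring.KrullDimLE 1 B := by
  refine ⟨(isNoetherianRing_iff_ideal_fg _).2 fun J => ?_, ?_⟩
  · rcases eq_or_ne J ⊥ with rfl | hJ
    · exact fg_bot
    obtain ⟨x, hx, hx0⟩ := J.ne_bot_iff.1 hJ
    have hfl := isFiniteLength_quotient K B (J := Ideal.span {x}) (by simpa using hx0)
    have := (isFiniteLength_iff_isNoetherian_isArtinian.1 hfl).1
    have : IsNoetherian B (B ⧸ Ideal.span {x}) := isNoetherian_of_tower A inferInstance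
    refine fg_of_fg_map_of_fg_inf_ker (Submodule.mkQ (Ideal.span {x}))
      (IsNoetherian.noetherian _) ?_
    rw [ker_mkQ, inf_eq_right.2 ((Ideal.span_singleton_le_iff_mem J).2 hx)]
    exact fg_span_singleton x
  · refine Ring.krullDimLE_one_iff_of_noZeroDivisors.2 fun P hP hPp => ?_
    have hfl := isFiniteLength_quotient K B hP
    have := (isFiniteLength_iff_isNoetherian_isArtinian.1 hfl).2
    have : IsArtinianRing (B ⧸ P) := isArtinian_of_tower A inferInstance
    exact Ideal.Quotient.maximal_of_isField P (IsArtinianRing.isField_of_isDomain _)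

include K in
/-- The integral closure of a one-dimensional noetherian domain in a finite extension of its
fraction field, separable or not, is a Dedekind domain. -/
theorem isDedekindDomain_integralClosure : IsDedekindDomain (integralClosure A L) := by
  obtain ⟨hN, hD⟩ := krull_akizuki K (integralClosure A L)
  have : IsFractionRing (integralClosure A L) L :=
    integralClosure.isFractionRing_of_finite_extension K L
  have := integralClosure.isIntegrallyClosedOfFiniteExtension K (R := A) (L := L)
  have : Ring.DimensionLEOne (integralClosure A L) :=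
    ⟨fun {P} hP hPp => Ring.krullDimLE_one_iff_of_noZeroDivisors.1 hD P hP hPp⟩
  have : IsDedekindRing (integralClosure A L) := {}
  exact {}

end subalgebra

end Fermat.Agent.KrullAkizuki
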